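import Mathlib
import Fermat.Agent.LT.T7.H87.BaseAQSpec
import Fermat.Agent.LT.T3.BridgeT5
import Fermat.Agent.LT.T3.M.ClosedM
import Fermat.Agent.LT.T3.R.H709.PureRegR
import Fermat.Agent.LT.T3.R.H505.TypeR
import Fermat.Agent.LT.T7.H826.WtOneKType

/-
T7.L2Q.1.H2a.A.0.P (registry row 3093), helper20: the leaf `BQ87.ShapeQC87` of helper87's cut
of `PQ484.BaseAQC484` (`T7/H87/BaseAQSpec.lean`, sha256 6471b15c), VERBATIM, unconditional:

  shapeQC20 F : BQ87.ShapeQC87 F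

PORT over `Q` of `shapeC607` (helper607, `T7/B981/H607/Shape.lean`, the cubic leaf
`B981.ShapeC981`): `Omega = Fin N` with the counting measure, `T = T0 u P`, `T'` = the places
of `F` over `T`.  Bridges `bridge20q` (`T3.M.pureFnM = pure305`, upstairs) and `bridgeR20q`
(`T3.R.pureFnR = MQ298.pureQ298` over `Q`: the real place of `Q` is unique, `T3.R.reGL` is
`MQ298.reGLQ298`).  Members: test functions by `T3.M.openM_c` / `T3.M.pureSmoothM` upstairs and
by `T3.R.H709.pureRegRC709` (helper709) downstairs, of type `t.type` by `typeR_eq_type20q`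
(`T3.R.typeR` of weight `t.wt` is `t.type` on the compact group at the real place; helper505
`so2_shape505`, `holPart_so2_505`) and `L2Q.wtOneKTypeC826` (helper826).
-/

set_option autoImplicit false

open AutomorphicForm IsDedekindDomain NumberField MeasureTheory
open scoped ComplexConjugate

noncomputable section

namespace Fermat.Agent.LT.T7.H20

open Fermat.Agent.LT Fermat.Agent.LT.H556 Fermat.Agent.LT.H556.A0 Fermat.Agent.LT.T7
  Fermat.Agent.LT.T7.H305 Fermat.Agent.LT.T7.L2Q Fermat.Agent.LT.T7.H893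
  Fermat.Agent.LT.T7.H962 Fermat.Agent.LT.T7.H732 Fermat.Agent.LT.T7.MQ298
  Fermat.Agent.LT.T7.CQ801 Fermat.Agent.LT.T7.PQ484 Fermat.Agent.LT.T7.BQ87

attribute [local instance] Fermat.Agent.LT.T5.instMeasurableSpaceG

section OneField

variable {F : Type} [Field F] [NumberField F]

/-- The condition of the level group at `w` is `InU (n w)`. -/
theorem closure_iff_inU20q {𝔑 : Ideal (𝓞 F)} {n : HeightOneSpectrum (𝓞 F) → ℕ}
    (hn : IsLevelOf893 𝔑 n) (w : HeightOneSpectrum (𝓞 F)) (h : G F) :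
    (∀ i j : Fin 2, (finComp w h - 1) i j ∈ idealClosure 𝔑 w ∧
        (finComp w h⁻¹ - 1) i j ∈ idealClosure 𝔑 w) ↔ T6.InU (n w) (finGL305 w h) := by
  have e : ((finGL305 w h)⁻¹ : GL (Fin 2) (w.adicCompletion F)) = finGL305 w h⁻¹ :=
    (map_inv _ _).symm
  constructor
  · intro H i j
    refine ⟨(hn w _).1 (H i j).1, ?_⟩
    rw [e]
    exact (hn w _).1 (H i j).2
  · intro H i j
    refine ⟨(hn w _).2 (H i j).1, ?_⟩
    have h2 := (H i j).2
    rw [e] at h2
    exact (hn w _).2 h2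

/-- An entry of the unit matrix is integral. -/
theorem one_entry_mem20q (w : HeightOneSpectrum (𝓞 F)) (i j : Fin 2) :
    (1 : Matrix (Fin 2) (Fin 2) (w.adicCompletion F)) i j ∈ w.adicCompletionIntegers F := by
  rw [Matrix.one_apply]
  split_ifs
  · exact one_mem _
  · exact zero_mem _

/-- `U(0) = GL₂(𝒪)`. -/
theorem inU_zero_iff20q (w : HeightOneSpectrum (𝓞 F)) (h : G F) :
    T6.InU 0 (finGL305 w h) ↔ IsIntegralAt w h ∧ IsIntegralAt w h⁻¹ := by
  have e : ((finGL305 w h)⁻¹ : GL (Fin 2) (w.adicCompletion F)) = finGL305 w h⁻¹ :=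
    (map_inv _ _).symm
  have h1 : WithZero.exp (-((0 : ℕ) : ℤ)) = (1 : T6.Γ₀) := by
    rw [Nat.cast_zero, neg_zero, WithZero.exp_zero]
  have key : ∀ (x : w.adicCompletion F) (i j : Fin 2),
      Valued.v (x - (1 : Matrix (Fin 2) (Fin 2) (w.adicCompletion F)) i j)
        ≤ WithZero.exp (-((0 : ℕ) : ℤ)) ↔ x ∈ w.adicCompletionIntegers F := by
    intro x i j
    rw [h1]
    constructor
    · intro hx
      have h2 : x - (1 : Matrix (Fin 2) (Fin 2) (w.adicCompletion F)) i j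
          ∈ w.adicCompletionIntegers F := hx
      have h3 := add_mem h2 (one_entry_mem20q w i j)
      rwa [sub_add_cancel] at h3
    · intro hx
      exact sub_mem hx (one_entry_mem20q w i j)
  constructor
  · intro H
    refine ⟨fun i j => (key _ i j).1 (H i j).1, fun i j => ?_⟩
    have h2 := (H i j).2
    rw [e] at h2
    exact (key _ i j).1 h2
  · intro H i j
    refine ⟨(key _ i j).2 (H.1 i j), ?_⟩
    rw [e]
    exact (key _ i j).2 (H.2 i j)

/-- The exponent of the level vanishes at a place which does not divide the level. -/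
theorem level_zero20q {𝔑 : Ideal (𝓞 F)} {n : HeightOneSpectrum (𝓞 F) → ℕ}
    (hn : IsLevelOf893 𝔑 n) (w : HeightOneSpectrum (𝓞 F)) (a : 𝓞 F) (ha : a ∈ 𝔑)
    (haw : a ∉ w.asIdeal) : n w = 0 := by
  have hmem : algebraMap F (w.adicCompletion F) (algebraMap (𝓞 F) F a) ∈ idealClosure 𝔑 w :=
    subset_closure ⟨a, ha, rfl⟩
  have h1 := (hn w _).1 hmem
  have e0 : Valued.v (algebraMap F (w.adicCompletion F) (algebraMap (𝓞 F) F a))
      = w.valuation F (algebraMap (𝓞 F) F a) :=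
    HeightOneSpectrum.valuedAdicCompletion_eq_valuation' w (algebraMap (𝓞 F) F a)
  rw [e0, (HeightOneSpectrum.valuation_eq_one_iff_notMem (K := F) (v := w)).2 haw,
    ← WithZero.exp_zero, WithZero.exp_le_exp] at h1
  omega

open Classical in
/-- **THE BRIDGE** between the pure tensors of T3 (station M) and of T7 (helper305). -/
theorem bridge20q {𝔑 : Ideal (𝓞 F)} {n : HeightOneSpectrum (𝓞 F) → ℕ}
    (hn : IsLevelOf893 𝔑 n) (P T : Finset (HeightOneSpectrum (𝓞 F))) (hPT : P ⊆ T)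
    (φ₀ : ∀ w : HeightOneSpectrum (𝓞 F), GL (Fin 2) (w.adicCompletion F) → ℂ)
    (Φ : InfinitePlace F → GL (Fin 2) ℂ → ℂ)
    (hunit : ∀ w ∈ T, w ∉ P → φ₀ w = unitFn893 (n w))
    (hzero : ∀ w : HeightOneSpectrum (𝓞 F), w ∉ T → n w = 0) :
    T3.M.pureFnM F 𝔑 P φ₀ Φ = pure305 T φ₀ Φ := by
  funext h
  have hout : OutT305 T h ↔ ∀ w, w ∉ T → T6.InU (n w) (finGL305 w h) := by
    constructor
    · intro H w hw
      rw [hzero w hw]
      exact (inU_zero_iff20q w h).2 (H w hw)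
    · intro H w hw
      have h2 := H w hw
      rw [hzero w hw] at h2
      exact (inU_zero_iff20q w h).1 h2
  have hUM : T3.M.OutsideUM F 𝔑 P h ↔ ∀ w, w ∉ P → T6.InU (n w) (finGL305 w h) := by
    constructor
    · intro H w hw
      exact (closure_iff_inU20q hn w h).1 (H w hw)
    · intro H w hw
      exact (closure_iff_inU20q hn w h).2 (H w hw)
  have hprod : (∀ w ∈ T, w ∉ P → T6.InU (n w) (finGL305 w h)) →
      ∏ w ∈ T, φ₀ w (finGL305 w h) = ∏ w ∈ P, φ₀ w (finGL305 w h) := by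
    intro H
    refine (Finset.prod_subset hPT fun w hw hwP => ?_).symm
    rw [hunit w hw hwP]
    show (if T6.InU (n w) (finGL305 w h) then (1 : ℂ) else 0) = 1
    rw [if_pos (H w hw hwP)]
  by_cases hU : T3.M.OutsideUM F 𝔑 P h
  · have hU' := hUM.1 hU
    have hO : OutT305 T h := hout.2 fun w hw => hU' w (fun hP => hw (hPT hP))
    show (if T3.M.OutsideUM F 𝔑 P h then
        (∏ v ∈ P, φ₀ v (T3.AS.finGL F v h)) * ∏ w : InfinitePlace F, Φ w (T3.AS.infGL F w h)
      else 0)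
      = (if OutT305 T h then
        (∏ v ∈ T, φ₀ v (finGL305 v h)) * ∏ w : InfinitePlace F, Φ w (infGL305 w h) else 0)
    rw [if_pos hU, if_pos hO, hprod fun w _ hwP => hU' w hwP]
    rfl
  · show (if T3.M.OutsideUM F 𝔑 P h then
        (∏ v ∈ P, φ₀ v (T3.AS.finGL F v h)) * ∏ w : InfinitePlace F, Φ w (T3.AS.infGL F w h)
      else 0)
      = (if OutT305 T h then
        (∏ v ∈ T, φ₀ v (finGL305 v h)) * ∏ w : InfinitePlace F, Φ w (infGL305 w h) else 0)
    rw [if_neg hU]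
    by_cases hO : OutT305 T h
    · rw [if_pos hO]
      have hex : ∃ w, w ∉ P ∧ ¬ T6.InU (n w) (finGL305 w h) := by
        by_contra hcon
        push Not at hcon
        exact hU (hUM.2 hcon)
      obtain ⟨w, hwP, hwn⟩ := hex
      have hwT : w ∈ T := by
        by_contra hwT
        exact hwn (hout.1 hO w hwT)
      have h0 : φ₀ w (finGL305 w h) = 0 := by
        rw [hunit w hwT hwP]
        show (if T6.InU (n w) (finGL305 w h) then (1 : ℂ) else 0) = 0
        rw [if_neg hwn]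
      rw [Finset.prod_eq_zero hwT h0, zero_mul]
    · rw [if_neg hO]

end OneField

section OverQ

open Classical in
/-- **THE BRIDGE over `ℚ`** between the pure tensors of T3 (station R) and of helper298. -/
theorem bridgeR20q {𝔑 : Ideal (𝓞 ℚ)} {n : HeightOneSpectrum (𝓞 ℚ) → ℕ}
    (hn : IsLevelOf893 𝔑 n) (P T : Finset (HeightOneSpectrum (𝓞 ℚ))) (hPT : P ⊆ T)
    (hR : ∀ w : InfinitePlace ℚ, w.IsReal)
    (φ₀ : ∀ w : HeightOneSpectrum (𝓞 ℚ), GL (Fin 2) (w.adicCompletion ℚ) → ℂ)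
    (Fr : GL (Fin 2) ℝ → ℂ)
    (hunit : ∀ w ∈ T, w ∉ P → φ₀ w = unitFn893 (n w))
    (hzero : ∀ w : HeightOneSpectrum (𝓞 ℚ), w ∉ T → n w = 0) :
    T3.R.pureFnR ℚ hR 𝔑 P φ₀ (fun _ => Fr) = MQ298.pureQ298 T φ₀ Fr := by
  funext h
  have hre : ∏ w : InfinitePlace ℚ, Fr (T3.R.reGL ℚ w (hR w) h) = Fr (MQ298.reGLQ298 h) := by
    rw [Fintype.prod_subsingleton _ Rat.infinitePlace]
    rfl
  have hout : OutT305 T h ↔ ∀ w, w ∉ T → T6.InU (n w) (finGL305 w h) := by
    constructor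
    · intro H w hw
      rw [hzero w hw]
      exact (inU_zero_iff20q w h).2 (H w hw)
    · intro H w hw
      have h2 := H w hw
      rw [hzero w hw] at h2
      exact (inU_zero_iff20q w h).1 h2
  have hUM : T3.M.OutsideUM ℚ 𝔑 P h ↔ ∀ w, w ∉ P → T6.InU (n w) (finGL305 w h) := by
    constructor
    · intro H w hw
      exact (closure_iff_inU20q hn w h).1 (H w hw)
    · intro H w hw
      exact (closure_iff_inU20q hn w h).2 (H w hw)
  have hprod : (∀ w ∈ T, w ∉ P → T6.InU (n w) (finGL305 w h)) →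
      ∏ w ∈ T, φ₀ w (finGL305 w h) = ∏ w ∈ P, φ₀ w (finGL305 w h) := by
    intro H
    refine (Finset.prod_subset hPT fun w hw hwP => ?_).symm
    rw [hunit w hw hwP]
    show (if T6.InU (n w) (finGL305 w h) then (1 : ℂ) else 0) = 1
    rw [if_pos (H w hw hwP)]
  by_cases hU : T3.M.OutsideUM ℚ 𝔑 P h
  · have hU' := hUM.1 hU
    have hO : OutT305 T h := hout.2 fun w hw => hU' w (fun hP => hw (hPT hP))
    show (if T3.M.OutsideUM ℚ 𝔑 P h then
        (∏ v ∈ P, φ₀ v (T3.AS.finGL ℚ v h)) *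
          ∏ w : InfinitePlace ℚ, Fr (T3.R.reGL ℚ w (hR w) h)
      else 0)
      = (if OutT305 T h then
        (∏ v ∈ T, φ₀ v (finGL305 v h)) * Fr (MQ298.reGLQ298 h) else 0)
    rw [if_pos hU, if_pos hO, hprod fun w _ hwP => hU' w hwP, hre]
    rfl
  · show (if T3.M.OutsideUM ℚ 𝔑 P h then
        (∏ v ∈ P, φ₀ v (T3.AS.finGL ℚ v h)) *
          ∏ w : InfinitePlace ℚ, Fr (T3.R.reGL ℚ w (hR w) h)
      else 0)
      = (if OutT305 T h then
        (∏ v ∈ T, φ₀ v (finGL305 v h)) * Fr (MQ298.reGLQ298 h) else 0)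
    rw [if_neg hU]
    by_cases hO : OutT305 T h
    · rw [if_pos hO]
      have hex : ∃ w, w ∉ P ∧ ¬ T6.InU (n w) (finGL305 w h) := by
        by_contra hcon
        push Not at hcon
        exact hU (hUM.2 hcon)
      obtain ⟨w, hwP, hwn⟩ := hex
      have hwT : w ∈ T := by
        by_contra hwT
        exact hwn (hout.1 hO w hwT)
      have h0 : φ₀ w (finGL305 w h) = 0 := by
        rw [hunit w hwT hwP]
        show (if T6.InU (n w) (finGL305 w h) then (1 : ℂ) else 0) = 0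
        rw [if_neg hwn]
      rw [Finset.prod_eq_zero hwT h0, zero_mul]
    · rw [if_neg hO]

end OverQ


section TwoFields

variable {K K' : Type} [Field K] [NumberField K] [Field K'] [NumberField K'] [Algebra K K']

/-- Every place of `K'` lies over a place of `K`. -/
theorem exists_under20q (w : HeightOneSpectrum (𝓞 K')) :
    ∃ v : HeightOneSpectrum (𝓞 K), PlaceOver K K' v w := by
  refine ⟨HeightOneSpectrum.under (𝓞 K) w, (H557.placeOver_iff_557 _ w).2 ?_⟩
  simp only [HeightOneSpectrum.under_asIdeal]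

/-- The exponents of `𝔫` and of `𝔫 𝒪_{K'}` vanish outside the places of the level. -/
theorem levelAt20q {𝔫 : Ideal (𝓞 K)} {T₀ : Finset (HeightOneSpectrum (𝓞 K))}
    {n : HeightOneSpectrum (𝓞 K') → ℕ} {m : HeightOneSpectrum (𝓞 K) → ℕ}
    (hT₀ : ∀ v : HeightOneSpectrum (𝓞 K), v ∈ T₀ ↔ v.asIdeal ∣ 𝔫)
    (hm : IsLevelOf893 𝔫 m) (hn : IsLevelOf893 (upI (K' := K') 𝔫) n) :
    IsLevelAt305 (K' := K') T₀ n m := by
  have hex : ∀ v : HeightOneSpectrum (𝓞 K), v ∉ T₀ → ∃ a ∈ 𝔫, a ∉ v.asIdeal := by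
    intro v hv
    have h1 : ¬ 𝔫 ≤ v.asIdeal := fun h => hv ((hT₀ v).2 (Ideal.dvd_iff_le.2 h))
    obtain ⟨a, ha, hav⟩ := Set.not_subset.1 h1
    exact ⟨a, ha, hav⟩
  refine ⟨fun v hv => ?_, fun v w hv hvw => ?_⟩
  · obtain ⟨a, ha, hav⟩ := hex v hv
    exact level_zero20q hm v a ha hav
  · obtain ⟨a, ha, hav⟩ := hex v hv
    refine level_zero20q hn w (algebraMap (𝓞 K) (𝓞 K') a) (Ideal.mem_map_of_mem _ ha) ?_
    exact fun h => hav ((hvw a (algebraMap (𝓞 K) (𝓞 K') a) rfl).2 h)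

end TwoFields


section OverQ2

/-- The two types are `K_∞`-types. -/
theorem isKType_type20q (t : QWt) : T5.IsKType t.type := by
  cases t with
  | w0 => exact T5.isKType_triv
  | w1 => exact wtOneKTypeC826

/-- The entries of the component at the real place. -/
theorem infComp_eq_reGL20q (k : G ℚ) (i j : Fin 2) :
    infComp Rat.infinitePlace k i j
      = (((T3.R.reGL ℚ Rat.infinitePlace (ratReal87 Rat.infinitePlace) k : GL (Fin 2) ℝ) :
        Matrix (Fin 2) (Fin 2) ℝ) i j : ℂ) :=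
  T3.R.infHom_eq_reHom ℚ Rat.infinitePlace (ratReal87 Rat.infinitePlace) _

/-- On the compact group at the real place the type `typeR` of weight `t.wt` is `t.type`. -/
theorem typeR_eq_type20q (t : QWt) (w : InfinitePlace ℚ) (k : G ℚ) (hk : IsArchCompact w k) :
    T3.R.typeR ℚ ratReal87 (fun _ => t.wt) k = t.type k := by
  rw [T3.R.H505.typeR_eq_single505 ℚ ratReal87 (fun _ => t.wt) w k hk]
  cases t with
  | w0 =>
    show (T6.holPart (T3.R.reGL ℚ w (ratReal87 w) k)) ^ (0 : ℤ) = 1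
    exact zpow_zero _
  | w1 =>
    have hw : w = Rat.infinitePlace := Subsingleton.elim _ _
    subst hw
    have hso := T3.R.H505.inSO2_of_archCompact505 ℚ Rat.infinitePlace
      (ratReal87 Rat.infinitePlace) k hk
    have hhol := T3.R.H505.holPart_so2_505 _ hso
    obtain ⟨-, a2, a3⟩ := T3.R.H505.so2_shape505 _ hso.1 hso.2
    show (T6.holPart (T3.R.reGL ℚ Rat.infinitePlace (ratReal87 Rat.infinitePlace) k)) ^ (-1 : ℤ)
      = infComp Rat.infinitePlace k 0 0 + Complex.I * infComp Rat.infinitePlace k 0 1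
    rw [infComp_eq_reGL20q, infComp_eq_reGL20q, hhol, a2, zpow_neg_one]
    apply inv_eq_of_mul_eq_one_right
    have h3 : (((((T3.R.reGL ℚ Rat.infinitePlace (ratReal87 Rat.infinitePlace) k :
        GL (Fin 2) ℝ) : Matrix (Fin 2) (Fin 2) ℝ) 0 0) ^ 2
        + (((T3.R.reGL ℚ Rat.infinitePlace (ratReal87 Rat.infinitePlace) k :
        GL (Fin 2) ℝ) : Matrix (Fin 2) (Fin 2) ℝ) 1 0) ^ 2 : ℝ) : ℂ) = 1 := by
      rw [a3]
      simp
    push_cast at h3 ⊢
    linear_combination h3 - (((T3.R.reGL ℚ Rat.infinitePlace (ratReal87 Rat.infinitePlace) k :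
        GL (Fin 2) ℝ) : Matrix (Fin 2) (Fin 2) ℝ) 1 0 : ℂ) ^ 2 * Complex.I_sq

end OverQ2

section Leaf

variable (F : Type) [Field F] [NumberField F]

/-- **LEAF T7.L2Q.1.H2a.A.0.P `ShapeQC87`, VERBATIM, unconditional.** -/
theorem shapeQC20 : ShapeQC87 F := by
  classical
  intro _ _ Φe _ _ _ B _ _ 𝔫 _ T₀ n n₀ m hexp c _ D hD
  have hLA : IsLevelAt305 (K' := F) T₀ n m := levelAt20q hexp.div hexp.lev_dn hexp.lev_up
  have hPT₀ : ∀ v ∈ D.P, v ∉ T₀ := fun v hv hT => hD.frame_dn.prime v hv ((hexp.div v).1 hT)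
  -- the sets of places
  obtain ⟨T', hT'⟩ : ∃ T' : Finset (HeightOneSpectrum (𝓞 F)), IsOver305 (T₀ ∪ D.P) T' :=
    ⟨(H557.finite_over_557 (K' := F) (T₀ ∪ D.P)).toFinset, fun w => by
      rw [Set.Finite.mem_toFinset]
      exact Iff.rfl⟩
  have hP'T' : D.P' ⊆ T' := by
    intro w hw
    obtain ⟨v, hv⟩ := exists_under20q (K := ℚ) w
    exact (hT' w).2 ⟨v, Finset.mem_union_right _ ((hD.under v).2 ⟨w, hw, hv⟩), hv⟩
  -- the bridges
  have hbu : ∀ i : Fin D.N, T3.M.pureFnM F (upI (K' := F) 𝔫) D.P' (D.φ₀ i) (D.Φ i)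
      = pure305 T' (D.φ₀ i) (D.Φ i) := by
    intro i
    refine bridge20q hexp.lev_up D.P' T' hP'T' _ _ (fun w hw hwP => ?_) (fun w hw => ?_)
    · obtain ⟨v, hv, hvw⟩ := (hT' w).1 hw
      rcases Finset.mem_union.1 hv with hv | hv
      · exact (hD.loc i).2.1 v hv w hvw
      · rw [hD.unit_rest i w hwP ⟨v, hv, hvw⟩, hLA.2 v w (hPT₀ v hv) hvw]
    · obtain ⟨v, hv⟩ := exists_under20q (K := ℚ) w
      refine hLA.2 v w (fun hT => hw ((hT' w).2 ⟨v, Finset.mem_union_left _ hT, hv⟩)) hv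
  have hbd : ∀ (t : QWt) (i : Fin D.N),
      T3.R.pureFnR ℚ ratReal87 𝔫 D.P (D.f₀ i) (fun _ => D.Fr t i)
        = pureQ298 (T₀ ∪ D.P) (D.f₀ i) (D.Fr t i) := by
    intro t i
    refine bridgeR20q hexp.lev_dn D.P (T₀ ∪ D.P) Finset.subset_union_right ratReal87 _ _
      (fun v hv hvP => ?_) (fun v hv => ?_)
    · rcases Finset.mem_union.1 hv with hv | hv
      · rw [(hD.loc i).1 v hv]
      · exact absurd hv hvP
    · exact hLA.1 v fun hT => hv (Finset.mem_union_left _ hT)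
  -- the members are test functions
  have htu : ∀ i : Fin D.N, T5.IsTestFn (upI (K' := F) 𝔫) T5.trivType
      (pure305 T' (D.φ₀ i) (D.Φ i)) := by
    intro i
    obtain ⟨r1, r2, r3, -⟩ := (T3.M.openM_c F).pureReg (upI (K' := F) 𝔫) hD.frame_up.level
      D.P' hD.frame_up.prime (D.φ₀ i) (D.Φ i) (fun w hw => (hD.sat_up i w hw).bi_inv)
      (fun w hw => (hD.sat_up i w hw).fin_supp) (hD.test_up i)
    rw [← hbu i]
    exact T3.isTestFn_T5 F r1 r2 (T3.M.pureSmoothM _ _ _ _ (hD.smooth_up i)) r3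
  have hone : ∀ (t : QWt) (i : Fin D.N),
      (fun h => (1 : ℂ) * pureQ298 (T₀ ∪ D.P) (D.f₀ i) (D.Fr t i) h)
        = T3.R.pureFnR ℚ ratReal87 𝔫 D.P (D.f₀ i) (fun _ => D.Fr t i) := by
    intro t i
    rw [hbd t i]
    funext h
    exact one_mul _
  have htd : ∀ (t : QWt) (i : Fin D.N), T5.IsTestFn 𝔫 t.type
      (fun h => (1 : ℂ) * pureQ298 (T₀ ∪ D.P) (D.f₀ i) (D.Fr t i) h) := by
    intro t i
    obtain ⟨r1, r2, r3, r4, -⟩ := T3.R.H709.pureRegRC709 ℚ ratReal87 𝔫 hD.frame_dn.level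
      D.P hD.frame_dn.prime (fun _ => t.wt) (D.f₀ i) (fun _ => D.Fr t i)
      (fun v hv => (hD.sat_dn i v hv).bi_inv)
      (fun v hv => (hD.sat_dn i v hv).fin_supp) (fun _ => hD.test_dn t i)
    rw [hone t i]
    refine ⟨isKType_type20q t, r1, r2, r3, ⟨r4.level_right, r4.level_left, ?_, ?_⟩⟩
    · intro w k hk g
      rw [r4.arch_right w k hk g, typeR_eq_type20q t w k hk]
    · intro w k hk g
      rw [r4.arch_left w k hk g, typeR_eq_type20q t w k hk]
  have hsupp : ∀ (t : QWt) (i : Fin D.N),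
      IsCompact (tsupport (pureQ298 (T₀ ∪ D.P) (D.f₀ i) (D.Fr t i))) := by
    intro t i
    have h1 := (htd t i).supp
    have e : (fun h => (1 : ℂ) * pureQ298 (T₀ ∪ D.P) (D.f₀ i) (D.Fr t i) h)
        = pureQ298 (T₀ ∪ D.P) (D.f₀ i) (D.Fr t i) := funext fun h => one_mul _
    rw [e] at h1
    exact h1
  refine ⟨Fin D.N, inferInstance, inferInstance, inferInstance, inferInstance, inferInstance,
    ⟨borel_eq_top_of_discrete.symm⟩, Measure.count, inferInstance, fun _ => T₀ ∪ D.P,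
    fun _ => T', D.φ₀, D.Φ, D.f₀, D.F0, D.F1, ?_, htu, htd QWt.w0, htd QWt.w1,
    ?_, ?_, ?_, ?_, ?_, ?_, ?_, ?_, ?_⟩
  · exact fun a => ⟨Finset.subset_union_left, hT', hD.loc a⟩
  · exact continuous_prod_of_discrete_left.2 fun a => (htu a).cont
  · exact continuous_prod_of_discrete_left.2 fun a => (htd QWt.w0 a).cont
  · exact continuous_prod_of_discrete_left.2 fun a => (htd QWt.w1 a).cont
  · refine ⟨⋃ i : Fin D.N, tsupport (pure305 T' (D.φ₀ i) (D.Φ i)),
      isCompact_iUnion fun i => (htu i).supp, fun a h hne => ?_⟩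
    exact Set.mem_iUnion.2 ⟨a, subset_tsupport _ hne⟩
  · refine ⟨⋃ i : Fin D.N, tsupport (pureQ298 (T₀ ∪ D.P) (D.f₀ i) (D.F0 i)),
      isCompact_iUnion fun i => hsupp QWt.w0 i, fun a h hne => ?_⟩
    exact Set.mem_iUnion.2 ⟨a, subset_tsupport _ hne⟩
  · refine ⟨⋃ i : Fin D.N, tsupport (pureQ298 (T₀ ∪ D.P) (D.f₀ i) (D.F1 i)),
      isCompact_iUnion fun i => hsupp QWt.w1 i, fun a h hne => ?_⟩
    exact Set.mem_iUnion.2 ⟨a, subset_tsupport _ hne⟩
  · intro h
    rw [integral_count]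
    show ∑ i : Fin D.N, T3.M.pureFnM F (upI (K' := F) 𝔫) D.P' (D.φ₀ i) (D.Φ i) h = _
    exact Finset.sum_congr rfl fun i _ => congrFun (hbu i) h
  · intro h
    rw [integral_count]
    show ∑ i : Fin D.N, T3.R.pureFnR ℚ ratReal87 𝔫 D.P (D.f₀ i) (fun _ => D.Fr QWt.w0 i) h = _
    refine Finset.sum_congr rfl fun i _ => ?_
    rw [congrFun (hbd QWt.w0 i) h, one_mul]
    rfl
  · intro h
    rw [integral_count]
    show ∑ i : Fin D.N, T3.R.pureFnR ℚ ratReal87 𝔫 D.P (D.f₀ i) (fun _ => D.Fr QWt.w1 i) h = _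
    refine Finset.sum_congr rfl fun i _ => ?_
    rw [congrFun (hbd QWt.w1 i) h, one_mul]
    rfl

end Leaf

end Fermat.Agent.LT.T7.H20
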